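import Fermat.Agent.Carayol.Vert.Abstract
import Mathlib.Algebra.Polynomial.Expand
import Mathlib.RingTheory.Algebraic.Integral

/-!
# Valuations of a residue field, and relations over an inseparable coordinate
-/

set_option autoImplicit false
set_option linter.unusedSectionVars false
set_option linter.style.haveILetI false

noncomputable section

namespace FA.Carayol

open Polynomial

variable {F : Type*} [Field F]

theorem mem_of_le_of_lt_one {V W : ValuationSubring F} (h : V ≤ W) {x : F}
    (hx : W.valuation x < 1) : x ∈ V := by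
  rcases V.mem_or_inv_mem x with hm | hm
  · exact hm
  · exact ((val_lt_one_iff_inv.1 hx).elim (fun e => e ▸ zero_mem V) fun hn => absurd (h hm) hn)

theorem residue_eq_zero_iff_val {W : ValuationSubring F} (x : W) :
    IsLocalRing.residue W x = 0 ↔ W.valuation (x : F) < 1 := by
  rw [IsLocalRing.residue_eq_zero_iff, ← W.valuation_lt_one_iff]

theorem residue_eq_iff_val {W : ValuationSubring F} (x y : W) :
    IsLocalRing.residue W x = IsLocalRing.residue W y ↔ W.valuation ((x : F) - y) < 1 := by
  rw [← sub_eq_zero, ← map_sub, residue_eq_zero_iff_val]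
  rfl

/-- The valuation ring induced on the residue field of a larger one. -/
def resVal {V W : ValuationSubring F} (h : V ≤ W) :
    ValuationSubring (IsLocalRing.ResidueField W) :=
  { (V.toSubring.comap W.subtype).map (IsLocalRing.residue W) with
    mem_or_inv_mem' := fun l => by
      obtain ⟨x, rfl⟩ := IsLocalRing.residue_surjective l
      by_cases hx : IsLocalRing.residue W x = 0
      · exact Or.inl ⟨0, zero_mem (V.toSubring.comap W.subtype), by rw [hx, map_zero]⟩
      rcases V.mem_or_inv_mem (x : F) with hm | hm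
      · exact Or.inl ⟨x, hm, rfl⟩
      · refine Or.inr ⟨⟨(x : F)⁻¹, h hm⟩, hm, eq_inv_of_mul_eq_one_left ?_⟩
        rw [← map_mul, ← map_one (IsLocalRing.residue W)]
        refine congrArg _ (Subtype.ext ?_)
        exact inv_mul_cancel₀ fun e => hx (by rw [show x = 0 from Subtype.ext e, map_zero]) }

variable {V W : ValuationSubring F} (h : V ≤ W)

theorem residue_mem_resVal (x : W) :
    IsLocalRing.residue W x ∈ resVal h ↔ (x : F) ∈ V := by
  refine ⟨?_, fun hx => ⟨x, hx, rfl⟩⟩
  rintro ⟨y, hy, e⟩
  have h1 : (x : F) - y ∈ V :=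
    mem_of_le_of_lt_one h ((residue_eq_iff_val x y).1 e.symm)
  simpa using add_mem h1 (show (y : F) ∈ V from hy)

theorem resVal_lt_one (x : W) :
    (resVal h).valuation (IsLocalRing.residue W x) < 1 ↔ V.valuation (x : F) < 1 := by
  rw [val_lt_one_iff_inv, val_lt_one_iff_inv]
  by_cases hx : IsLocalRing.residue W x = 0
  · refine iff_of_true (Or.inl hx) ?_
    rcases val_lt_one_iff_inv.1 ((residue_eq_zero_iff_val x).1 hx) with h0 | h0
    · exact Or.inl h0
    · exact Or.inr fun hm => h0 (h hm)
  · have hx0 : (x : F) ≠ 0 := fun e => hx (by rw [show x = 0 from Subtype.ext e, map_zero])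
    have hu : (x : F)⁻¹ ∈ W := by
      by_contra hn
      exact hx ((residue_eq_zero_iff_val x).2 (val_lt_one_iff_inv.2 (Or.inr hn)))
    have e : (IsLocalRing.residue W x)⁻¹ = IsLocalRing.residue W ⟨(x : F)⁻¹, hu⟩ := by
      refine (eq_inv_of_mul_eq_one_left ?_).symm
      rw [← map_mul, ← map_one (IsLocalRing.residue W)]
      exact congrArg _ (Subtype.ext (inv_mul_cancel₀ hx0))
    rw [e, residue_mem_resVal h, or_iff_right hx, or_iff_right hx0]

theorem resVal_eq_one (x : W) (hx : V.valuation (x : F) = 1) :
    (resVal h).valuation (IsLocalRing.residue W x) = 1 := by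
  refine le_antisymm ((ValuationSubring.valuation_le_one_iff _ _).2
    ((residue_mem_resVal h x).2 ((V.valuation_le_one_iff _).1 hx.le))) (not_lt.1 fun hlt => ?_)
  exact ((resVal_lt_one h x).1 hlt).ne hx

include h in
/-- Equal values give equal values of the residues of units. -/
theorem resVal_congr (x y : W) (hy : W.valuation (y : F) = 1)
    (hxy : V.valuation (x : F) = V.valuation (y : F)) :
    (resVal h).valuation (IsLocalRing.residue W x) =
      (resVal h).valuation (IsLocalRing.residue W y) := by
  have hy0 : (y : F) ≠ 0 := fun e => by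
    rw [e, map_zero] at hy; exact zero_ne_one hy
  set u : W := x * ⟨(y : F)⁻¹, (W.valuation_le_one_iff _).1 (by rw [map_inv₀, hy, inv_one])⟩
  have hu : V.valuation (u : F) = 1 := by
    show V.valuation ((x : F) * (y : F)⁻¹) = 1
    rw [map_mul, map_inv₀, hxy, mul_inv_cancel₀ ((Valuation.ne_zero_iff _).2 hy0)]
  rw [show x = u * y from Subtype.ext (by
    show (x : F) = (x : F) * (y : F)⁻¹ * y
    rw [inv_mul_cancel_right₀ hy0]), map_mul, map_mul, resVal_eq_one h u hu, one_mul]

omit h in
theorem val_comap_congr {g : F →+* F} {x y : F} (hy : y ≠ 0)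
    (hxy : V.valuation (g x) = V.valuation (g y)) :
    (V.comap g).valuation x = (V.comap g).valuation y := by
  have h1 : (V.comap g).valuation (x / y) = 1 := val_comap_eq.2 (by
    rw [map_div₀, map_div₀, hxy, div_self ((Valuation.ne_zero_iff _).2
      ((map_ne_zero_iff _ g.injective).2 hy))])
  rwa [map_div₀, div_eq_one_iff_eq ((Valuation.ne_zero_iff _).2 hy)] at h1

/-! ### Relations over a root of the coordinate -/

variable {k L : Type*} [Field k] [Field L]

/-- A root of a transcendental element is transcendental. -/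
theorem eval₂_injective_of_pow (cm : k →+* L) {r : L} {q : ℕ}
    (h : ∀ P : k[X], P ≠ 0 → P.eval₂ cm (r ^ q) ≠ 0) :
    Function.Injective (eval₂RingHom cm r) := by
  rw [injective_iff_map_eq_zero]
  intro P hP
  by_contra hne
  letI : Algebra k L := cm.toAlgebra
  have halg : IsAlgebraic k r := ⟨P, hne, by rw [aeval_def, RingHom.algebraMap_toAlgebra]; exact hP⟩
  obtain ⟨Q, hQ, hQ0⟩ := halg.pow q
  exact h Q hQ (by rwa [aeval_def, RingHom.algebraMap_toAlgebra] at hQ0)

/-- Relations over the coordinate `r ^ q` give relations over `r` among `q` times fewer elements. -/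
theorem exists_dep_root (cm : k →+* L) (r : L) {q : ℕ} (hq : 0 < q) {D : ℕ}
    (h : ∀ x : Fin (D + 1) → L, ∃ P : Fin (D + 1) → k[X], P ≠ 0 ∧
      ∑ i, (P i).eval₂ cm (r ^ q) * x i = 0)
    (x : Fin (D / q + 1) → L) : ∃ Q : Fin (D / q + 1) → k[X], Q ≠ 0 ∧
      ∑ i, (Q i).eval₂ cm r * x i = 0 := by
  classical
  let f : Fin (D + 1) → Fin (D / q + 1) := fun n =>
    ⟨n / q, Nat.lt_succ_of_le (Nat.div_le_div_right (Nat.le_of_lt_succ n.2))⟩
  obtain ⟨P, hP, hsum⟩ := h fun n => r ^ ((n : ℕ) % q) * x (f n)
  refine ⟨fun i => ∑ n ∈ Finset.univ.filter (fun n => f n = i),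
    X ^ ((n : ℕ) % q) * expand k q (P n), fun h0 => hP (funext fun n₀ => ?_), ?_⟩
  · ext m
    have h1 := congrArg (fun p : k[X] => p.coeff (q * m + (n₀ : ℕ) % q)) (congrFun h0 (f n₀))
    simp only [finsetSum_coeff, Pi.zero_apply, coeff_zero] at h1
    rw [Finset.sum_eq_single n₀] at h1
    · rw [coeff_X_pow_mul, coeff_expand hq, if_pos (dvd_mul_right q m),
        Nat.mul_div_cancel_left _ hq] at h1
      simpa using h1
    · intro n hn hne
      rw [Finset.mem_filter] at hn
      have hmod : (n : ℕ) % q ≠ (n₀ : ℕ) % q := fun e => hne (Fin.ext (by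
        rw [← Nat.div_add_mod (n : ℕ) q, ← Nat.div_add_mod (n₀ : ℕ) q, e,
          show (n : ℕ) / q = (n₀ : ℕ) / q from congrArg Fin.val hn.2]))
      rw [coeff_X_pow_mul']
      split_ifs with hle
      · rw [coeff_expand hq, if_neg]
        rintro ⟨c, hc⟩
        refine hmod ?_
        have h2 : q * m + (n₀ : ℕ) % q = (n : ℕ) % q + q * c := by omega
        have := congrArg (· % q) h2
        simp only [Nat.mul_add_mod, Nat.mod_mod, Nat.add_mul_mod_self_left] at this
        exact this.symm
      · rfl
    · exact fun hn => absurd (show n₀ ∈ Finset.univ.filter (fun n => f n = f n₀) by simp) hn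
  · rw [← hsum, ← Finset.sum_fiberwise Finset.univ f]
    refine Finset.sum_congr rfl fun i _ => ?_
    rw [eval₂_finsetSum, Finset.sum_mul]
    refine Finset.sum_congr rfl fun n hn => ?_
    rw [(Finset.mem_filter.1 hn).2, eval₂_mul, eval₂_X_pow, expand_eq_comp_X_pow, eval₂_comp,
      eval₂_X_pow]
    ring

end FA.Carayol

end
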