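import Fermat.Agent.Carayol.Count.Reflect
import Fermat.Agent.Carayol.Model.CountDefs
import Fermat.Agent.Carayol.Vert.Main
import Fermat.Agent.CurveRed.Residue
import Mathlib.RingTheory.DedekindDomain.IntegralClosure
import Mathlib.RingTheory.Ideal.GoingUp
import Mathlib.RingTheory.Polynomial.UniqueFactorization

/-!
# The charts

A chart is Noetherian, its invariant elements are the polynomials in the coordinate, the group of
level `ℓ` is transitive on its points over a value of the coordinate, every point has the residue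
field of the constants and lies on a component.
-/

set_option autoImplicit false
set_option linter.unusedSectionVars false
set_option linter.style.haveILetI false

noncomputable section

namespace FA.Carayol

open CongruenceSubgroup ModularCurve FA.Level Polynomial
open scoped MatrixGroups

local notation "Qb" => AlgebraicClosure ℚ

variable [Algebra Qb ℂ] {A : ValuationSubring Qb} {q : ℕ} {N : ℕ} [NeZero N] {ℓ : ℕ}
  {z : flN N (constK A q)} {ϖ : baseO A (constL A q).toSubfield} (b : Bool)

variable (A q z) in
/-- Evaluation at a coordinate. -/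
def phiB : (baseO A (constL A q).toSubfield)[X] →+* flN N (constK A q) :=
  eval₂RingHom (cF A q N) (coordB A q z b)

theorem phiB_C (a : baseO A (constL A q).toSubfield) :
    phiB A q z b (C a) = cF A q N a := by simp [phiB]

theorem phiB_X : phiB A q z b X = coordB A q z b := by simp [phiB]

/-- The components in the two coordinates. -/
theorem isVertF_iff (W : ValuationSubring (flN N (constK A q))) :
    IsVertF A q ϖ z W ↔ IsVertV (phiB A q z b) ϖ W := by
  have h : IsVertF A q ϖ z W ↔ IsVertV (eval₂RingHom (cF A q N) z) ϖ W := by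
    rw [IsVertV, coe_eval₂RingHom, eval₂_C]
    rfl
  cases b with
  | false => exact h
  | true => exact h.trans isVertV_inv_iff.symm

/-- A polynomial in `z` in the other coordinate. -/
theorem eval_z_coord (hz0 : z ≠ 0) {P : (baseO A (constL A q).toSubfield)[X]} {n : ℕ}
    (hn : P.natDegree ≤ n) :
    P.eval₂ (cF A q N) z =
      phiB A q z b (bif b then reflect n P else P) * (bif b then z ^ n else 1) := by
  cases b with
  | false => simp [phiB, coordB]
  | true =>
    have h := eval_inv_eq_reflect (cF A q N) (inv_ne_zero hz0) hn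
    rw [inv_inv] at h
    exact h

/-- The stabiliser of a set as a set. -/
theorem mem_stabSet {F : Type*} [Field F] {G : Subgroup (F ≃+* F)} {S : Set F} {g : F ≃+* F} :
    g ∈ stabSet G S ↔ g ∈ G ∧ ∀ x, g x ∈ S ↔ x ∈ S := Iff.rfl

theorem mem_stabVal {F : Type*} [Field F] {G : Subgroup (F ≃+* F)} {W : ValuationSubring F}
    {g : F ≃+* F} : g ∈ stabVal G W ↔ g ∈ G ∧ ∀ x, g x ∈ W ↔ x ∈ W := Iff.rfl

section residue

variable (hC : ConstHyp A (constL A q).toSubfield ϖ)
include hC

theorem resO_surjective : Function.Surjective (resO A q) := fun t => by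
  obtain ⟨a, rfl⟩ := IsLocalRing.residue_surjective t
  obtain ⟨c, hc⟩ := hC.residue a a.2
  refine ⟨c, ?_⟩
  show IsLocalRing.residue A ⟨c, c.2.1⟩ = IsLocalRing.residue A a
  rw [eq_comm, ← sub_eq_zero, ← map_sub, IsLocalRing.residue_eq_zero_iff,
    A.valuation_lt_one_iff]
  exact hc

theorem pi_dvd_iff {a : baseO A (constL A q).toSubfield} : ϖ ∣ a ↔ resO A q a = 0 := by
  constructor
  · rintro ⟨c, rfl⟩
    rw [map_mul, resO_pi hC, zero_mul]
  · intro h
    haveI := hC.dvr
    have hmem : a ∈ IsLocalRing.maximalIdeal (baseO A (constL A q).toSubfield) :=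
      (IsLocalRing.mem_maximalIdeal _).2 fun hu => resO_ne_of_isUnit hu h
    rwa [hC.irreducible.maximalIdeal_eq, Ideal.mem_span_singleton] at hmem

/-- A polynomial without unit coefficient reduces to zero. -/
theorem map_resO_eq_zero {P : (baseO A (constL A q).toSubfield)[X]}
    (hP : ¬ ∃ i, IsUnit (P.coeff i)) : P.map (resO A q) = 0 := by
  haveI := hC.dvr
  ext i
  rw [coeff_map, coeff_zero]
  by_contra h
  refine hP ⟨i, by_contra fun hu => h ((pi_dvd_iff hC).1 ?_)⟩
  have hmem : P.coeff i ∈ IsLocalRing.maximalIdeal (baseO A (constL A q).toSubfield) :=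
    (IsLocalRing.mem_maximalIdeal _).2 hu
  rwa [hC.irreducible.maximalIdeal_eq, Ideal.mem_span_singleton] at hmem

theorem exists_unit_coeff_of_map_ne {P : (baseO A (constL A q).toSubfield)[X]}
    (hP : P.map (resO A q) ≠ 0) : ∃ i, IsUnit (P.coeff i) :=
  by_contra fun h => hP (map_resO_eq_zero hC h)

theorem C_pi_dvd_of_map_eq_zero {P : (baseO A (constL A q).toSubfield)[X]}
    (hP : P.map (resO A q) = 0) : C ϖ ∣ P :=
  (C_dvd_iff_dvd_coeff _ _).2 fun i => (pi_dvd_iff hC).2 (by
    rw [← coeff_map, hP, coeff_zero])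

end residue

variable (hC : ConstHyp A (constL A q).toSubfield ϖ) (hz : Coord A q ℓ z)
include hC hz

theorem z_ne_zero : z ≠ 0 := fun e => by
  have h := (isVertF_inftyVal hz hC).2 X ⟨1, by simp⟩
  rw [eval₂_X] at h
  exact one_ne_zero (h.symm.trans ((Valuation.zero_iff _).2 e))

theorem galLvl_coord {g : flN N (constK A q) ≃+* flN N (constK A q)}
    (hg : g ∈ galLvl A q ℓ) : g (coordB A q z b) = coordB A q z b := by
  have h : g z = z := by simpa using galLvl_eval hz hg X
  cases b with
  | false => exact h
  | true => show g z⁻¹ = z⁻¹; rw [map_inv₀, h]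

theorem galLvl_phiB {g : flN N (constK A q) ≃+* flN N (constK A q)}
    (hg : g ∈ galLvl A q ℓ) (P : (baseO A (constL A q).toSubfield)[X]) :
    g (phiB A q z b P) = phiB A q z b P := by
  show (g : flN N (constK A q) →+* flN N (constK A q)) (eval₂ _ _ P) = _
  rw [hom_eval₂]
  show eval₂ _ (g (coordB A q z b)) P = _
  rw [galLvl_coord b hC hz hg]
  show _ = eval₂ (cF A q N) (coordB A q z b) P
  congr 1
  exact RingHom.ext fun a => galLvl_cF hg a

theorem phiB_injective : Function.Injective (phiB A q z b) := by
  rw [injective_iff_map_eq_zero]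
  intro P hP
  by_contra hne
  obtain ⟨k, hk⟩ := exists_val_poly hC (z := z)
    (P := bif b then reflect P.natDegree P else P) (by
      cases b with
      | false => exact hne
      | true => exact fun h => hne (reflect_eq_zero_iff.1 h))
  have h1 := hk _ (isVertF_inftyVal hz hC)
  have h0 : (bif b then reflect P.natDegree P else P).eval₂ (cF A q N) z = 0 := by
    cases b with
    | false => exact hP
    | true =>
      have h := eval_inv_eq_reflect (cF A q N) (z_ne_zero hC hz) (P := P) le_rfl
      rw [show P.eval₂ (cF A q N) z⁻¹ = phiB A q z true P from rfl, hP, eq_comm, mul_eq_zero] at h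
      exact h.resolve_right (pow_ne_zero _ (inv_ne_zero (z_ne_zero hC hz)))
  rw [h0, map_zero] at h1
  exact pow_ne_zero k ((Valuation.ne_zero_iff _).2 (cF_pi_ne_zero hC)) h1.symm

/-- The invariant functions are fractions of polynomials in the coordinate. -/
theorem exists_fixed_fraction_coord {x : flN N (constK A q)}
    (hx : ∀ g ∈ galLvl A q ℓ, g x = x) :
    ∃ P Q, Q ≠ 0 ∧ x * phiB A q z b Q = phiB A q z b P := by
  obtain ⟨P, Q, hQ, e⟩ := exists_fixed_fraction hz hx
  set n := max P.natDegree Q.natDegree
  have hP := eval_z_coord b (z_ne_zero hC hz) (P := P) (n := n) (le_max_left _ _)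
  have hQ' := eval_z_coord b (z_ne_zero hC hz) (P := Q) (n := n) (le_max_right _ _)
  rw [hP, hQ', ← mul_assoc] at e
  rw [hQ'] at hQ
  refine ⟨_, _, fun h => hQ (by rw [h, map_zero, zero_mul]),
    mul_right_cancel₀ (right_ne_zero_of_mul hQ) e⟩

/-- The bound on the residues of a component, in either coordinate. -/
theorem residues_dependent_coord {W : ValuationSubring (flN N (constK A q))}
    (hW : IsVertF A q ϖ z W)
    (x : Fin (Nat.card (stabVal (galLvl A q ℓ) W) + 1) → flN N (constK A q))
    (hx : ∀ i, x i ∈ W) :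
    ∃ P : Fin (Nat.card (stabVal (galLvl A q ℓ) W) + 1) → (baseO A (constL A q).toSubfield)[X],
      (∃ i j, IsUnit ((P i).coeff j)) ∧ W.valuation (∑ i, phiB A q z b (P i) * x i) < 1 := by
  obtain ⟨P, ⟨i, hi⟩, hs⟩ := residues_dependent hC hz hW x hx
  set n := ∑ i, (P i).natDegree
  have hn : ∀ i, (P i).natDegree ≤ n := fun i =>
    Finset.single_le_sum (f := fun i => (P i).natDegree) (fun _ _ => Nat.zero_le _)
      (Finset.mem_univ i)
  refine ⟨fun i => bif b then reflect n (P i) else P i, ⟨i, ?_⟩, ?_⟩
  · cases b with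
    | false => exact hi
    | true => exact exists_unit_coeff_reflect' n hi
  · have e : ∑ i, (P i).eval₂ (cF A q N) z * x i =
        (∑ i, phiB A q z b (bif b then reflect n (P i) else P i) * x i) *
          (bif b then z ^ n else 1) := by
      rw [Finset.sum_mul]
      exact Finset.sum_congr rfl fun i _ => by
        rw [eval_z_coord b (z_ne_zero hC hz) (hn i)]; ring
    have h1 : W.valuation (bif b then z ^ n else 1) = 1 := by
      cases b with
      | false => simp
      | true =>
        have := hW.2 (X ^ n) ⟨n, by simp⟩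
        simpa using this
    rw [e, map_mul, h1, mul_one] at hs
    exact hs

/-! ### The chart as an extension of the polynomials -/

omit hC hz in
theorem mem_chart_iff (x : flN N (constK A q)) :
    x ∈ chartF A q (coordB A q z b) ↔ (phiB A q z b).IsIntegralElem x := Iff.rfl

omit hC hz in
theorem phiB_mem (P : (baseO A (constL A q).toSubfield)[X]) :
    phiB A q z b P ∈ chartF A q (coordB A q z b) := (phiB A q z b).isIntegralElem_map

variable (A q z) in
omit hC hz in
/-- The polynomials in the chart. -/
def toChart : (baseO A (constL A q).toSubfield)[X] →+* chartF A q (coordB A q z b) :=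
  (phiB A q z b).codRestrict _ (phiB_mem b)

omit hC hz in
theorem coe_toChart (P : (baseO A (constL A q).toSubfield)[X]) :
    (toChart A q z b P : flN N (constK A q)) = phiB A q z b P := rfl

omit hC hz in
theorem toChart_integral : (toChart A q z b).IsIntegral := fun x => by
  obtain ⟨P, hP, he⟩ := (mem_chart_iff b _).1 x.2
  refine ⟨P, hP, Subtype.ext ?_⟩
  rw [ZeroMemClass.coe_zero, ← he, ← Subring.coe_subtype, hom_eval₂]
  rfl

theorem galLvl_mem_chart {g : flN N (constK A q) ≃+* flN N (constK A q)}
    (hg : g ∈ galLvl A q ℓ) {x : flN N (constK A q)} (hx : x ∈ chartF A q (coordB A q z b)) :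
    g x ∈ chartF A q (coordB A q z b) := by
  obtain ⟨P, hP, he⟩ := (mem_chart_iff b _).1 hx
  refine (mem_chart_iff b _).2 ⟨P, hP, ?_⟩
  have h := congrArg (g : flN N (constK A q) →+* flN N (constK A q)) he
  rw [hom_eval₂, map_zero] at h
  refine Eq.trans ?_ h
  congr 1
  exact RingHom.ext fun Q => (galLvl_phiB b hC hz hg Q).symm

/-- An automorphism on the chart. -/
def actB (g : galLvl (N := N) A q ℓ) :
    chartF A q (coordB A q z b) →+* chartF A q (coordB A q z b) :=
  (((g : flN N (constK A q) ≃+* flN N (constK A q)) :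
      flN N (constK A q) →+* flN N (constK A q)).comp (Subring.subtype _)).codRestrict _
    fun x => galLvl_mem_chart b hC hz g.2 x.2

theorem coe_actB (g : galLvl (N := N) A q ℓ) (x : chartF A q (coordB A q z b)) :
    (actB b hC hz g x : flN N (constK A q)) =
      (g : flN N (constK A q) ≃+* flN N (constK A q)) x := rfl

theorem actB_surjective (g : galLvl (N := N) A q ℓ) : Function.Surjective (actB b hC hz g) :=
  fun x => ⟨actB b hC hz g⁻¹ x, Subtype.ext (by
    rw [coe_actB, coe_actB, Subgroup.coe_inv]
    exact RingEquiv.apply_symm_apply _ _)⟩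

theorem actB_toChart (g : galLvl (N := N) A q ℓ)
    (P : (baseO A (constL A q).toSubfield)[X]) :
    actB b hC hz g (toChart A q z b P) = toChart A q z b P :=
  Subtype.ext (galLvl_phiB b hC hz g.2 P)

/-- Noetherianity and the invariants. -/
theorem chart_noeth_and_invariant : IsNoetherianRing (chartF A q (coordB A q z b)) ∧
    ∀ x : chartF A q (coordB A q z b),
      (∀ g ∈ galLvl A q ℓ, g (x : flN N (constK A q)) = x) → ∃ P, toChart A q z b P = x := by
  classical
  haveI := finite_galLvl (A := A) (q := q) (N := N) (ℓ := ℓ)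
  haveI := hC.dvr
  let G := galLvl (N := N) A q ℓ
  let K' := FixedPoints.subfield G (flN N (constK A q))
  let R := (baseO A (constL A q).toSubfield)[X]
  have hK : ∀ P : R, phiB A q z b P ∈ K' := fun P g => galLvl_phiB b hC hz g.2 P
  letI : Algebra R K' := ((phiB A q z b).codRestrict K' hK).toAlgebra
  letI : Algebra R (flN N (constK A q)) := (phiB A q z b).toAlgebra
  letI : Algebra R (chartF A q (coordB A q z b)) := (toChart A q z b).toAlgebra
  haveI : IsScalarTower R K' (flN N (constK A q)) := IsScalarTower.of_algebraMap_eq fun _ => rfl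
  haveI : IsScalarTower R (chartF A q (coordB A q z b)) (flN N (constK A q)) :=
    IsScalarTower.of_algebraMap_eq fun _ => rfl
  haveI : FaithfulSMul R K' := (faithfulSMul_iff_algebraMap_injective R K').2 fun a c h =>
    phiB_injective b hC hz (congrArg Subtype.val h)
  haveI : IsFractionRing R K' := IsFractionRing.of_field R K' fun x => by
    obtain ⟨P, Q, hQ, e⟩ := exists_fixed_fraction_coord b hC hz (x := (x : flN N (constK A q)))
      fun g hg => x.2 ⟨g, hg⟩
    refine ⟨P, Q, Subtype.ext ?_⟩
    show (x : flN N (constK A q)) = phiB A q z b P / phiB A q z b Q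
    rw [← e, mul_div_cancel_right₀ _ ((map_ne_zero_iff _ (phiB_injective b hC hz)).2 hQ)]
  haveI : IsIntegralClosure (chartF A q (coordB A q z b)) R (flN N (constK A q)) :=
    ⟨Subtype.val_injective, fun {x} => ⟨fun h => ⟨⟨x, h⟩, rfl⟩, by rintro ⟨y, rfl⟩; exact y.2⟩⟩
  refine ⟨IsIntegralClosure.isNoetherianRing R K' (flN N (constK A q)) _, fun x hx => ?_⟩
  have h1 : IsIntegral R (⟨(x : flN N (constK A q)), fun g => hx g g.2⟩ : K') :=
    (isIntegral_algHom_iff (IsScalarTower.toAlgHom R K' (flN N (constK A q)))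
      Subtype.val_injective).1 x.2
  obtain ⟨P, hP⟩ := IsIntegrallyClosed.isIntegral_iff.1 h1
  exact ⟨P, Subtype.ext (congrArg Subtype.val hP :)⟩

/-- **The group is transitive on the points over a value of the coordinate.** -/
theorem exists_actB_eq {I J : Ideal (chartF A q (coordB A q z b))} (hI : I.IsPrime)
    (hJ : J.IsMaximal) (h : J.comap (toChart A q z b) = I.comap (toChart A q z b)) :
    ∃ g, J = I.comap (actB b hC hz g) := by
  classical
  haveI := finite_galLvl (A := A) (q := q) (N := N) (ℓ := ℓ)
  haveI := Fintype.ofFinite (galLvl (N := N) A q ℓ)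
  haveI := hI
  obtain ⟨g, -, hg⟩ : ∃ g ∈ (Finset.univ : Finset (galLvl (N := N) A q ℓ)),
      J ≤ I.comap (actB b hC hz g) := by
    refine (Ideal.subset_union_prime 1 1 fun g _ _ _ => Ideal.comap_isPrime _ _).1 fun x hx => ?_
    simp only [Finset.coe_univ, Set.mem_univ, Set.iUnion_true, Set.mem_iUnion, SetLike.mem_coe,
      Ideal.mem_comap]
    set Nx := ∏ g, actB b hC hz g x
    obtain ⟨P, hP⟩ := (chart_noeth_and_invariant b hC hz).2 Nx fun g hg => by
      simp only [Nx]
      push_cast
      rw [map_prod]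
      refine Fintype.prod_equiv (Equiv.mulLeft (⟨g, hg⟩ : galLvl (N := N) A q ℓ)) _ _ fun g' => ?_
      rfl
    have h1 : Nx ∈ J := Ideal.mem_of_dvd _ (Finset.dvd_prod_of_mem _ (Finset.mem_univ 1))
      (show actB b hC hz 1 x ∈ J from hx)
    have h2 : Nx ∈ I := by
      rw [← hP] at h1 ⊢
      rw [← Ideal.mem_comap, ← h]
      exact h1
    obtain ⟨g, -, hg⟩ := hI.prod_mem_iff.1 h2
    exact ⟨g, hg⟩
  exact ⟨g, hJ.eq_of_le (Ideal.comap_isPrime _ _).ne_top hg⟩

omit hz in
set_option maxHeartbeats 1000000 in
/-- **The residue field of a point is that of the constants.** -/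
theorem exists_const_sub_mem {I : Ideal (chartF A q (coordB A q z b))} (hI : I.IsMaximal)
    (hϖ : toChart A q z b (C ϖ) ∈ I) (x : chartF A q (coordB A q z b)) :
    ∃ a, x - toChart A q z b (C a) ∈ I := by
  haveI : IsAlgClosed (IsLocalRing.ResidueField A) := FA.CurveRed.isAlgClosed_residueField A
  haveI := hI
  letI := Ideal.Quotient.field I
  set ψ₀ := ((Ideal.Quotient.mk I).comp (toChart A q z b)).comp C
  have hker : RingHom.ker (resO A q) ≤ RingHom.ker ψ₀ := fun a ha => by
    obtain ⟨c, rfl⟩ := (pi_dvd_iff hC).2 (RingHom.mem_ker.1 ha)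
    rw [RingHom.mem_ker, map_mul,
      show ψ₀ ϖ = 0 from Ideal.Quotient.eq_zero_iff_mem.2 hϖ, zero_mul]
  set ψ := RingHom.liftOfSurjective (resO A q) (resO_surjective hC) ⟨ψ₀, hker⟩
  have hψ : ∀ a, ψ (resO A q a) = ψ₀ a :=
    RingHom.liftOfRightInverse_comp_apply _ _ _ ⟨ψ₀, hker⟩
  set wb := Ideal.Quotient.mk I (toChart A q z b X)
  -- the value of the coordinate is a constant
  set τ := eval₂RingHom ψ wb
  have hτ : τ.comp (mapRingHom (resO A q)) = (Ideal.Quotient.mk I).comp (toChart A q z b) := by
    refine Polynomial.ringHom_ext (fun a => ?_) ?_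
    · simp [τ, hψ, ψ₀]
    · simp [τ, wb]
  have hint : τ.IsIntegral := RingHom.IsIntegral.tower_top (mapRingHom (resO A q)) τ (by
    rw [hτ]
    exact (toChart_integral b).trans _ _ (RingHom.isIntegral_of_surjective _
      Ideal.Quotient.mk_surjective))
  haveI := Ideal.isMaximal_comap_of_isIntegral_of_isMaximal' τ hint ⊥
  obtain ⟨c, hc⟩ : ∃ c, τ (X - C c) = 0 := by
    set M := (⊥ : Ideal (chartF A q (coordB A q z b) ⧸ I)).comap τ with hM
    obtain ⟨g, hg⟩ := (IsPrincipalIdealRing.principal M).principal
    rw [Ideal.submodule_span_eq] at hg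
    have hne : g.degree ≠ 0 := fun hd => by
      have hu : IsUnit g := isUnit_iff_degree_eq_zero.2 hd
      exact (inferInstance : M.IsMaximal).ne_top (by rw [hg, Ideal.span_singleton_eq_top.2 hu])
    obtain ⟨c, hc⟩ := IsAlgClosed.exists_root g hne
    refine ⟨c, ?_⟩
    have hle : M ≤ Ideal.span {X - C c} := by
      rw [hg, Ideal.span_singleton_le_span_singleton]
      exact dvd_iff_isRoot.2 hc
    have he := (inferInstance : M.IsMaximal).eq_of_le (fun ht => not_isUnit_X_sub_C c
      (Ideal.span_singleton_eq_top.1 ht)) hle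
    have hmem : X - C c ∈ M := he ▸ Ideal.mem_span_singleton_self _
    exact Ideal.mem_bot.1 hmem
  -- so the residue field is integral over the constants
  have hwb : wb = ψ c := by simpa [τ, sub_eq_zero] using hc
  letI : Algebra (IsLocalRing.ResidueField A) (chartF A q (coordB A q z b) ⧸ I) := ψ.toAlgebra
  haveI : Algebra.IsIntegral (IsLocalRing.ResidueField A) (chartF A q (coordB A q z b) ⧸ I) :=
    ⟨fun y => by
      obtain ⟨P, hP, he⟩ := hint y
      refine ⟨P.map (evalRingHom c), hP.map _, ?_⟩
      rw [eval₂_map, show (algebraMap (IsLocalRing.ResidueField A)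
        (chartF A q (coordB A q z b) ⧸ I)).comp (evalRingHom c) = τ from
          Polynomial.ringHom_ext (fun a => by simp [τ, RingHom.algebraMap_toAlgebra])
            (by simp [τ, RingHom.algebraMap_toAlgebra, hwb])]
      exact he⟩
  obtain ⟨t, ht⟩ := (IsAlgClosed.algebraMap_bijective_of_isIntegral
    (k := IsLocalRing.ResidueField A)).2 (Ideal.Quotient.mk I x)
  obtain ⟨a, rfl⟩ := resO_surjective hC t
  refine ⟨a, Ideal.Quotient.eq.1 ?_⟩
  rw [← ht]
  exact hψ a

omit hz in
theorem mem_of_isVertF {W : ValuationSubring (flN N (constK A q))} (hW : IsVertF A q ϖ z W)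
    {x : flN N (constK A q)} (hx : x ∈ chartF A q (coordB A q z b)) : x ∈ W := by
  obtain ⟨P, hP, he⟩ := (mem_chart_iff b x).1 hx
  let g := (phiB A q z b).codRestrict W.toSubring fun Q =>
    (ValuationSubring.valuation_le_one_iff _ _).1 (le_one_of_vert ((isVertF_iff b W).1 hW) Q)
  have hint : IsIntegral W x := ⟨P.map g, hP.map _, by
    rw [eval₂_map]
    exact he⟩
  obtain ⟨y, hy⟩ := IsIntegrallyClosed.isIntegral_iff.1 hint
  exact hy ▸ y.2

omit hz in
/-- The chart inside a component. -/
def toVert {W : ValuationSubring (flN N (constK A q))} (hW : IsVertF A q ϖ z W) :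
    chartF A q (coordB A q z b) →+* W :=
  (Subring.subtype _).codRestrict W.toSubring fun x => mem_of_isVertF b hC hW x.2

omit hz in
/-- The trace of a component on a chart. -/
def centreB {W : ValuationSubring (flN N (constK A q))} (hW : IsVertF A q ϖ z W) :
    Ideal (chartF A q (coordB A q z b)) :=
  (IsLocalRing.maximalIdeal W).comap (toVert b hC hW)

omit hz in
theorem mem_centreB {W : ValuationSubring (flN N (constK A q))} (hW : IsVertF A q ϖ z W)
    {x : chartF A q (coordB A q z b)} :
    x ∈ centreB b hC hW ↔ W.valuation (x : flN N (constK A q)) < 1 := by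
  rw [centreB, Ideal.mem_comap]
  exact W.valuation_lt_one_iff _

omit hC hz in
theorem val_comap_galLvl {W : ValuationSubring (flN N (constK A q))}
    (g : flN N (constK A q) ≃+* flN N (constK A q)) (x : flN N (constK A q)) :
    (W.comap (g : flN N (constK A q) →+* flN N (constK A q))).valuation x < 1 ↔
      W.valuation (g x) < 1 := val_comap_lt

theorem isVertF_comap {W : ValuationSubring (flN N (constK A q))} (hW : IsVertF A q ϖ z W)
    {g : flN N (constK A q) ≃+* flN N (constK A q)} (hg : g ∈ galLvl A q ℓ) :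
    IsVertF A q ϖ z (W.comap (g : flN N (constK A q) →+* flN N (constK A q))) := by
  refine ⟨val_comap_lt.2 ?_, fun P hP => val_comap_eq.2 ?_⟩
  · show W.valuation (g _) < 1
    rw [galLvl_cF hg]
    exact hW.1
  · show W.valuation (g _) = 1
    rw [galLvl_eval hz hg]
    exact hW.2 P hP

/-- **Some component passes through each point.** -/
theorem exists_vert_thru {I : Ideal (chartF A q (coordB A q z b))} (hI : I.IsMaximal)
    (hϖ : toChart A q z b (C ϖ) ∈ I) : ∃ W, IsVertF A q ϖ z W ∧
      ∀ x : chartF A q (coordB A q z b), W.valuation (x : flN N (constK A q)) < 1 → x ∈ I := by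
  haveI := hI
  letI : Algebra (baseO A (constL A q).toSubfield)[X] (chartF A q (coordB A q z b)) :=
    (toChart A q z b).toAlgebra
  haveI : Algebra.IsIntegral (baseO A (constL A q).toSubfield)[X]
      (chartF A q (coordB A q z b)) := ⟨toChart_integral b⟩
  have hW₀ := isVertF_inftyVal hz hC
  haveI : (centreB b hC hW₀).IsPrime := Ideal.comap_isPrime _ _
  haveI : (I.comap (toChart A q z b)).IsPrime := Ideal.comap_isPrime _ _
  have hle : (centreB b hC hW₀).comap (toChart A q z b) ≤ I.comap (toChart A q z b) := fun P hP => by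
    rw [Ideal.mem_comap, mem_centreB, coe_toChart] at hP
    have h0 : ¬ ∃ i, IsUnit (P.coeff i) := fun h => hP.ne (((isVertF_iff b _).1 hW₀).2 P h)
    exact Ideal.mem_of_dvd _ (C_pi_dvd_of_map_eq_zero hC (map_resO_eq_zero hC h0)) hϖ
  obtain ⟨Q, hQge, hQp, hQ⟩ := Ideal.exists_ideal_over_prime_of_isIntegral
    (I.comap (toChart A q z b)) (centreB b hC hW₀) hle
  haveI := hQp
  obtain ⟨g, hg⟩ := exists_actB_eq b hC hz (I := Q) (J := I) hQp hI hQ.symm
  refine ⟨_, isVertF_comap hC hz hW₀ g.2, fun x hx => ?_⟩
  rw [hg, Ideal.mem_comap]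
  exact hQge ((mem_centreB b hC hW₀).2 (val_comap_lt.1 hx))

end FA.Carayol

end
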