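import Mathlib.RingTheory.Valuation.LocalSubring
import Mathlib.RingTheory.LocalRing.LocalSubring
import Mathlib.RingTheory.Valuation.ValuationSubring
import Mathlib.RingTheory.Ideal.Operations

/-!
# A valuation ring inside another, centred at a given maximal ideal
-/

set_option autoImplicit false
set_option linter.unusedSectionVars false
set_option linter.style.haveILetI false

noncomputable section

namespace FA.Carayol

variable {F : Type*} [Field F]

/-- If `W` is centred inside the maximal ideal `p` of a subring, some valuation ring contained in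
`W` has centre `p`. -/
theorem exists_le_centred (B : Subring F) (W : ValuationSubring F) (hBW : ∀ x ∈ B, x ∈ W)
    (p : Ideal B) [p.IsMaximal] (h : ∀ x : B, W.valuation (x : F) < 1 → x ∈ p) :
    ∃ V : ValuationSubring F, V ≤ W ∧ (∀ x ∈ B, x ∈ V) ∧
      ∀ x : B, V.valuation (x : F) < 1 ↔ x ∈ p := by
  set ρ := (IsLocalRing.residue W).comp (B.subtype.codRestrict W.toSubring fun x => hBW x x.2)
  have hρ : ∀ x : B, ρ x = 0 ↔ W.valuation (x : F) < 1 := fun x =>
    (IsLocalRing.residue_eq_zero_iff _).trans (W.valuation_lt_one_iff _)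
  set π := ρ.rangeRestrict
  have hker : RingHom.ker π ≤ p := fun x hx =>
    h x ((hρ x).1 (congrArg Subtype.val (RingHom.mem_ker.1 hx) :))
  haveI : (p.map π).IsPrime := Ideal.map_isPrime_of_surjective ρ.rangeRestrict_surjective hker
  -- the elements of `W` congruent to one of the ring
  let R : Subring F := (ρ.range.comap (IsLocalRing.residue W)).map W.subtype
  have hR : ∀ x : R, ∃ hx : (x : F) ∈ W, IsLocalRing.residue W ⟨x, hx⟩ ∈ ρ.range := fun x => by
    obtain ⟨y, hy, e⟩ := x.2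
    exact ⟨e ▸ y.2, by rwa [show (⟨(x : F), e ▸ y.2⟩ : W) = y from Subtype.ext e.symm]⟩
  let ψ : R →+* ρ.range := RingHom.codRestrict
    ((IsLocalRing.residue W).comp (R.subtype.codRestrict W.toSubring fun x => (hR x).1))
    _ fun x => (hR x).2
  set P := (p.map π).comap ψ
  haveI : P.IsPrime := Ideal.comap_isPrime _ _
  obtain ⟨V, hV⟩ := (LocalSubring.ofPrime R P).exists_le_valuationSubring
  obtain ⟨hle, hloc⟩ := LocalSubring.le_def.1 hV
  have hsmall : ∀ r : R, r ∈ P → V.valuation (r : F) < 1 := fun r hr => by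
    have hrV : (r : F) ∈ V := hle (LocalSubring.le_ofPrime R P r.2)
    rw [show (r : F) = ((⟨(r : F), hrV⟩ : V) : F) from rfl, ← ValuationSubring.valuation_lt_one_iff,
      IsLocalRing.mem_maximalIdeal, mem_nonunits_iff]
    intro hu
    exact ((IsLocalization.AtPrime.isUnit_to_map_iff (LocalSubring.ofPrime R P).toSubring P r).1
      (hloc.map_nonunit ⟨(r : F), LocalSubring.le_ofPrime R P r.2⟩ hu)) hr
  have hres : ∀ x : B, (x : F) ∈ R := fun x => ⟨⟨x, hBW x x.2⟩, ⟨x, rfl⟩, rfl⟩
  have hBV : ∀ x ∈ B, x ∈ V := fun x hx => hle (LocalSubring.le_ofPrime R P (hres ⟨x, hx⟩))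
  have hp : ∀ x ∈ p, V.valuation ((x : B) : F) < 1 := fun x hx =>
    hsmall ⟨x, hres x⟩ (by
      show ψ _ ∈ p.map π
      exact Ideal.mem_map_of_mem π hx)
  refine ⟨V, fun y hy => ?_, hBV, fun x => ⟨fun hx => ?_, hp x⟩⟩
  · by_contra hyW
    have hy0 : y ≠ 0 := fun e => hyW (e ▸ zero_mem W)
    have hlt : W.valuation y⁻¹ < 1 := by
      rw [map_inv₀]
      exact inv_lt_one_of_one_lt₀ (lt_of_not_ge fun e => hyW ((W.valuation_le_one_iff y).1 e))
    have hm : y⁻¹ ∈ W := (W.valuation_le_one_iff _).1 hlt.le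
    have h0 : IsLocalRing.residue W ⟨y⁻¹, hm⟩ = 0 :=
      (IsLocalRing.residue_eq_zero_iff _).2 ((W.valuation_lt_one_iff _).2 hlt)
    have hyR : y⁻¹ ∈ R := ⟨⟨y⁻¹, hm⟩, ⟨0, by rw [map_zero, h0]⟩, rfl⟩
    have h1 := mul_lt_one_of_lt_of_le
      (hsmall ⟨y⁻¹, hyR⟩ (by
        show ψ _ ∈ p.map π
        rw [show ψ ⟨y⁻¹, hyR⟩ = 0 from Subtype.ext h0]
        exact zero_mem _))
      ((V.valuation_le_one_iff _).2 hy)
    rw [← map_mul, show ((⟨y⁻¹, hyR⟩ : R) : F) = y⁻¹ from rfl, inv_mul_cancel₀ hy0, map_one] at h1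
    exact lt_irrefl _ h1
  · by_contra hxp
    obtain ⟨s, i, hi, e⟩ := ‹p.IsMaximal›.exists_inv hxp
    have h1 : V.valuation ((s : F) * x) < 1 := by
      rw [map_mul]
      exact (mul_le_of_le_one_left' ((V.valuation_le_one_iff _).2 (hBV _ s.2))).trans_lt hx
    have h3 := V.valuation.map_add_lt h1 (hp i hi)
    rw [show (s : F) * x + i = 1 from congrArg Subtype.val e, map_one] at h3
    exact lt_irrefl _ h3

end FA.Carayol

end
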