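import Fermat.Agent.Carayol.Count.Local
import Fermat.Agent.Carayol.Count.Composite

/-!
# Points of the special fibre: residues, translates, valuations centred at a point
-/

set_option autoImplicit false
set_option linter.unusedSectionVars false
set_option linter.style.haveILetI false

noncomputable section

namespace FA.Carayol

open CongruenceSubgroup ModularCurve FA.Level Polynomial
open scoped MatrixGroups

local notation "Qb" => AlgebraicClosure ℚ

variable [Algebra Qb ℂ] {A : ValuationSubring Qb} {q : ℕ} {N : ℕ} [NeZero N] {ℓ : ℕ}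
  {z : flN N (constK A q)} {ϖ : baseO A (constL A q).toSubfield}
  (hC : ConstHyp A (constL A q).toSubfield ϖ)
include hC

/-- Every function of the chart is congruent to a constant at a point. -/
theorem exists_cF_sub_mem {p : Pt A q z} (hp : IsPtF ϖ p)
    (x : chartF A q (coordB A q z p.1)) : ∃ (a : baseO A (constL A q).toSubfield)
      (y : chartF A q (coordB A q z p.1)),
        (y : flN N (constK A q)) = cF A q N a ∧ x - y ∈ p.2 := by
  obtain ⟨a, ha⟩ := exists_const_sub_mem p.1 hC hp.1 (toChart_pi_mem hC hp) x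
  exact ⟨a, _, phiB_C p.1 a, ha⟩

theorem toChart_C_mem_iff {p : Pt A q z} (hp : IsPtF ϖ p) (a : baseO A (constL A q).toSubfield) :
    toChart A q z p.1 (C a) ∈ p.2 ↔ ϖ ∣ a := by
  refine ⟨fun h => ?_, fun ⟨c, hc⟩ => ?_⟩
  · haveI := hC.dvr
    by_contra hnd
    have hu : IsUnit a := by_contra fun hn => hnd (by
      have hm : a ∈ IsLocalRing.maximalIdeal (baseO A (constL A q).toSubfield) :=
        (IsLocalRing.mem_maximalIdeal _).2 hn
      rwa [hC.irreducible.maximalIdeal_eq, Ideal.mem_span_singleton] at hm)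
    exact hp.1.ne_top (Ideal.eq_top_of_isUnit_mem _ h ((hu.map C).map (toChart A q z p.1)))
  · rw [hc, map_mul, map_mul]
    exact Ideal.mul_mem_right _ _ (toChart_pi_mem hC hp)

/-- Polynomials at a point over a value `c` of the coordinate. -/
theorem toChart_mem_iff {p : Pt A q z} (hp : IsPtF ϖ p) {c : baseO A (constL A q).toSubfield}
    (hc : toChart A q z p.1 (X - C c) ∈ p.2) (P : (baseO A (constL A q).toSubfield)[X]) :
    toChart A q z p.1 P ∈ p.2 ↔ ϖ ∣ P.eval c := by
  rw [← toChart_C_mem_iff hC hp]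
  have h : toChart A q z p.1 (P - C (P.eval c)) ∈ p.2 := by
    obtain ⟨Q, hQ⟩ := X_sub_C_dvd_sub_C_eval (p := P) (a := c)
    rw [hQ, map_mul]
    exact Ideal.mul_mem_right _ _ hc
  rw [map_sub] at h
  exact ⟨fun hP => (Submodule.sub_mem_iff_right _ hP).1 h,
    fun hP => (Submodule.sub_mem_iff_left _ hP).1 h⟩

variable (hz : Coord A q ℓ z)
include hz

/-- **Points over the same value of the coordinate are translates.** -/
theorem exists_galLvl_point (b : Bool) {I J : Ideal (chartF A q (coordB A q z b))}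
    (hI : IsPtF ϖ (⟨b, I⟩ : Pt A q z)) (hJ : IsPtF ϖ (⟨b, J⟩ : Pt A q z))
    {c : baseO A (constL A q).toSubfield} (hcI : toChart A q z b (X - C c) ∈ I)
    (hcJ : toChart A q z b (X - C c) ∈ J) :
    ∃ g : galLvl (N := N) A q ℓ, ∀ x, x ∈ J ↔ actB b hC hz g x ∈ I := by
  obtain ⟨g, hg⟩ := exists_actB_eq b hC hz hI.1.isPrime hJ.1 (Ideal.ext fun P => by
    rw [Ideal.mem_comap, Ideal.mem_comap]
    exact (toChart_mem_iff hC hJ hcJ P).trans (toChart_mem_iff hC hI hcI P).symm)
  exact ⟨g, fun x => by rw [show J = I.comap (actB b hC hz g) from hg, Ideal.mem_comap]⟩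

omit hz

/-- **A valuation inside a component centred at a point on it.** -/
theorem exists_val_centred {p : Pt A q z} (hp : IsPtF ϖ p)
    {W : ValuationSubring (flN N (constK A q))} (hW : IsVertF A q ϖ z W) (hthru : Thru p W) :
    ∃ V : ValuationSubring (flN N (constK A q)), V ≤ W ∧
      (∀ x ∈ chartF A q (coordB A q z p.1), x ∈ V) ∧
      ∀ x : chartF A q (coordB A q z p.1),
        V.valuation (x : flN N (constK A q)) < 1 ↔ x ∈ p.2 :=
  haveI := hp.1
  exists_le_centred (chartF A q (coordB A q z p.1)) W (fun _ hx => mem_of_isVertF p.1 hC hW hx)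
    p.2 hthru

variable {p : Pt A q z}
  (S : SurfPt (phiB A q z p.1) ϖ (chartF A q (coordB A q z p.1)) p.2 (vertsAt A q ϖ z p))

omit hC in
/-- A function small at a component is divisible by its local equation at the point. -/
theorem exists_mul_eq_of_small (i : vertsAt A q ϖ z p) {x : chartF A q (coordB A q z p.1)}
    (hx : (S.W i).valuation (x : flN N (constK A q)) < 1) :
    ∃ a c : chartF A q (coordB A q z p.1), c ∉ p.2 ∧ x * c = S.t i * a := by
  have h : algebraMap _ S.R x ∈ S.ctrR i := hx
  rw [S.ctrR_eq i, Ideal.mem_span_singleton] at h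
  obtain ⟨y, hy⟩ := h
  obtain ⟨a, c, hc, hyc⟩ := S.exists_frac y
  refine ⟨a, c, hc, Subtype.ext ?_⟩
  have h1 := congrArg Subtype.val hy
  rw [S.coe_algebraMap] at h1
  rw [Subring.coe_mul, Subring.coe_mul, h1, Subring.coe_mul, mul_assoc, hyc]
  rfl

end FA.Carayol

end
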