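import Fermat.Agent.Carayol.Count.Chart
import Fermat.Agent.Carayol.Algebra.SurfaceRoot

/-!
# A point with local equations of its components
-/

set_option autoImplicit false
set_option linter.unusedSectionVars false
set_option linter.style.haveILetI false

noncomputable section

namespace FA.Carayol

open CongruenceSubgroup ModularCurve FA.Level Polynomial
open scoped MatrixGroups

local notation "Qb" => AlgebraicClosure ℚ

variable [Algebra Qb ℂ] {A : ValuationSubring Qb} {q : ℕ} {N : ℕ} [NeZero N] {ℓ : ℕ}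
  {z : flN N (constK A q)} {ϖ : baseO A (constL A q).toSubfield}
  (hC : ConstHyp A (constL A q).toSubfield ϖ) (hz : Coord A q ℓ z)
include hC

theorem toChart_pi_mem {p : Pt A q z} (hp : IsPtF ϖ p) : toChart A q z p.1 (C ϖ) ∈ p.2 := by
  obtain ⟨x, hx, he⟩ := hp.2
  rwa [show toChart A q z p.1 (C ϖ) = x from Subtype.ext ((phiB_C p.1 ϖ).trans he.symm)]

/-- A valuation in which the uniformiser is a unit contains all constants. -/
theorem const_mem_of_pi_unit {V : ValuationSubring (flN N (constK A q))}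
    (hV : ∀ a : baseO A (constL A q).toSubfield, cF A q N a ∈ V)
    (h1 : V.valuation (cF A q N ϖ) = 1) (c : constK A q) : toFl (rC c) ∈ V := by
  haveI := hC.dvr
  obtain ⟨a, b, hb, e⟩ := exists_base_fraction c
  have e' : toFl (rC c) * cF A q N b = cF A q N a := by
    have h := congrArg ((toFl (N := N)).comp rC) e
    rw [map_mul] at h
    exact h
  obtain ⟨k, u, rfl⟩ := IsDiscreteValuationRing.eq_unit_mul_pow_irreducible hb hC.irreducible
  have hu : V.valuation (cF A q N (u : baseO A (constL A q).toSubfield)) = 1 := by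
    obtain ⟨v, hv⟩ := u.isUnit.exists_right_inv
    refine le_antisymm ((V.valuation_le_one_iff _).2 (hV _)) (not_lt.1 fun hlt => ?_)
    have h2 := mul_lt_one_of_lt_of_le hlt ((V.valuation_le_one_iff _).2 (hV v))
    rw [← map_mul, ← map_mul, hv, map_one, map_one] at h2
    exact lt_irrefl _ h2
  have h3 := congrArg V.valuation e'
  rw [map_mul, map_mul, map_mul, map_pow, map_pow, hu, h1, one_pow, one_mul, mul_one] at h3
  rw [← V.valuation_le_one_iff, h3]
  exact (V.valuation_le_one_iff _).2 (hV a)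

include hz

theorem scaled_of_isVertF {W : ValuationSubring (flN N (constK A q))}
    (hW : IsVertF A q ϖ z W) : Scaled (cF A q N ϖ) W := by
  haveI := finite_galLvl (A := A) (q := q) (N := N) (ℓ := ℓ)
  obtain ⟨g, hg, rfl⟩ := exists_translate_infty hC hz hW
  exact (scaled_inftyVal hC hz).translate (galLvl_cF hg ϖ)

theorem le_val_pi {W : ValuationSubring (flN N (constK A q))} (hW : IsVertF A q ϖ z W)
    {x : flN N (constK A q)} (hx : W.valuation x < 1) :
    W.valuation x ≤ W.valuation (cF A q N ϖ) := by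
  have hS := scaled_of_isVertF hC hz hW
  rcases eq_or_ne x 0 with rfl | hx0
  · rw [map_zero]; exact zero_le
  obtain ⟨j, hj⟩ := hS.scale x hx0
  rw [hj] at hx ⊢
  have hj1 : 1 ≤ j := by
    by_contra hc
    exact hx.not_ge (one_le_zpow_of_nonpos₀ hS.val_pos hS.small.le (by omega))
  calc _ ≤ W.valuation (cF A q N ϖ) ^ (1 : ℤ) :=
        zpow_le_zpow_right_of_le_one₀ hS.val_pos hS.small.le hj1
    _ = _ := zpow_one _

/-- A point with local equations of its components as a point of a surface. -/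
def surfPtOf {p : Pt A q z} (hp : IsPtF ϖ p) (hne : (vertsAt A q ϖ z p).Nonempty)
    (t π : vertsAt A q ϖ z p → chartF A q (coordB A q z p.1))
    (ht : ∀ i : vertsAt A q ϖ z p, i.1.valuation (t i : flN N (constK A q)) = i.1.valuation (cF A q N ϖ))
    (hsep : ∀ i : vertsAt A q ϖ z p, ∀ W' ∈ vertsAt A q ϖ z p, W' ≠ i.1 →
      W'.valuation (t i : flN N (constK A q)) = 1)
    (hdvd : ∀ i, ∃ (a : ℕ) (s c : chartF A q (coordB A q z p.1)), c ∉ p.2 ∧
      (t i : flN N (constK A q)) * s = cF A q N ϖ ^ a * c)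
    (hπ : ∀ i, π i ∈ p.2) (hπ1 : ∀ i : vertsAt A q ϖ z p, i.1.valuation (π i : flN N (constK A q)) = 1)
    (hreg : ∀ i : vertsAt A q ϖ z p, RegularAt A q z p i.1 (π i)) :
    SurfPt (phiB A q z p.1) ϖ (chartF A q (coordB A q z p.1)) p.2 (vertsAt A q ϖ z p) where
  mem_iff _ := Iff.rfl
  maxO := by
    haveI := hC.dvr
    rw [← hC.irreducible.maximalIdeal_eq]
    exact IsLocalRing.maximalIdeal.isMaximal _
  maximal := hp.1
  noeth := (chart_noeth_and_invariant p.1 hC hz).1
  pi_mem := by
    obtain ⟨x, hx, he⟩ := hp.2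
    exact ⟨x, hx, he.trans (phiB_C p.1 ϖ).symm⟩
  W i := i.1
  pi_ne := by rw [phiB_C]; exact cF_pi_ne_zero hC
  vert i := (isVertF_iff p.1 _).1 i.2.1
  thru i x hx := i.2.2 x hx
  cover V hV hthru := ⟨⟨V, (isVertF_iff p.1 V).2 hV, hthru⟩, rfl⟩
  exists_branch := hne.to_subtype
  t := t
  t_small i := (ht i).trans_lt i.2.1.1
  t_unif i x hx := (le_val_pi hC hz i.2.1 hx).trans_eq (ht i).symm
  t_sep i j hij := hsep i j.1 j.2 fun e => hij (Subtype.ext e)
  t_dvd i := by rw [phiB_C]; exact hdvd i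
  par := π
  par_mem := hπ
  par_unit := hπ1
  regular := hreg

omit hC hz in
/-- **A point with local equations of its components is as wanted.** -/
theorem localHolds (A : ValuationSubring Qb) (q : ℕ) {N : ℕ} [NeZero N]
    (ϖ : baseO A (constL A q).toSubfield) (z : flN N (constK A q)) (ℓ : ℕ) :
    LocalHolds A q ϖ z ℓ := by
  intro hC hz _ p hp hne hloc
  choose t π ht hsep hdvd hπ hπ1 hreg using fun i : vertsAt A q ϖ z p => hloc i.1 i.2
  let S := surfPtOf hC hz hp hne t π ht hsep hdvd hπ hπ1 hreg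
  constructor
  · intro x
    obtain ⟨a, ha⟩ := exists_const_sub_mem p.1 hC hp.1 (toChart_pi_mem hC hp) x
    exact ⟨a, _, phiB_C p.1 a, ha⟩
  · intro W hW hthru x hx
    exact (S.branch ⟨W, hW, hthru⟩ hx).imp (fun h => ⟨hx, h⟩) id
  · intro n hn f hf hV
    refine S.root hn hf fun V hB hor => hV V hB (hor.imp (fun h1 => ?_) (isVertF_iff p.1 V).2)
    rw [phiB_C] at h1
    exact const_mem_of_pi_unit hC (fun a => hB _ (by rw [← phiB_C p.1]; exact phiB_mem p.1 _)) h1

end FA.Carayol

end
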