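import Fermat.Agent.Carayol.Count.OnBranch

/-!
# The components through a point
-/

set_option autoImplicit false
set_option linter.unusedSectionVars false
set_option linter.style.haveILetI false

noncomputable section

namespace FA.Carayol

open CongruenceSubgroup ModularCurve FA.Level Polynomial
open scoped MatrixGroups

local notation "Qb" => AlgebraicClosure ℚ

variable [Algebra Qb ℂ] {A : ValuationSubring Qb} {q : ℕ} {N : ℕ} [NeZero N] {ℓ : ℕ}
  {z : flN N (constK A q)} {ϖ : baseO A (constL A q).toSubfield}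
  (hC : ConstHyp A (constL A q).toSubfield ϖ) (hz : Coord A q ℓ z)
include hC hz

theorem exists_comap_eq_of_isVertF {W W' : ValuationSubring (flN N (constK A q))}
    (hW : IsVertF A q ϖ z W) (hW' : IsVertF A q ϖ z W') :
    ∃ g : galLvl (N := N) A q ℓ, ∀ x, x ∈ W' ↔ (g : flN N (constK A q) ≃+* flN N (constK A q)) x ∈ W := by
  obtain ⟨g₁, hg₁, rfl⟩ := exists_translate_infty hC hz hW
  obtain ⟨g₂, hg₂, rfl⟩ := exists_translate_infty hC hz hW'
  refine ⟨⟨g₁⁻¹ * g₂, mul_mem (inv_mem hg₁) hg₂⟩, fun x => ?_⟩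
  show g₂ x ∈ inftyVal hz hC ↔ g₁ (g₁⁻¹ (g₂ x)) ∈ inftyVal hz hC
  rw [show g₁ (g₁⁻¹ (g₂ x)) = g₂ x from g₁.apply_symm_apply _]

set_option maxHeartbeats 800000 in
theorem comap_mem_vertsAt {p : Pt A q z} {W : ValuationSubring (flN N (constK A q))}
    (hW : W ∈ vertsAt A q ϖ z p) {s : flN N (constK A q) ≃+* flN N (constK A q)}
    (hs : s ∈ stabSet (galLvl A q ℓ) (ptSet p)) :
    W.comap (s : flN N (constK A q) →+* flN N (constK A q)) ∈ vertsAt A q ϖ z p :=
  ⟨isVertF_comap hC hz hW.1 hs.1, fun x hx =>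
    ((mem_stabSet_ptSet hC hz (⟨s, hs.1⟩ : galLvl (N := N) A q ℓ)).1 hs x).1
      (hW.2 (actB p.1 hC hz ⟨s, hs.1⟩ x) (val_comap_lt.1 hx))⟩

omit hC hz in
set_option maxHeartbeats 1600000 in
/-- **The counting.** -/
theorem countHolds (A : ValuationSubring Qb) (q : ℕ) {N : ℕ} [NeZero N]
    (hA : A.LiesOverPrime q) (ϖ : baseO A (constL A q).toSubfield)
    (z : flN N (constK A q)) (ℓ : ℕ) : CountHolds A q ϖ z ℓ := by
  classical
  intro _ hC hz _ p hp
  have hϖ : toChart A q z p.1 (C ϖ) ∈ p.2 := by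
    obtain ⟨x, hx, hxe⟩ := hp.2
    rwa [show toChart A q z p.1 (C ϖ) = x from Subtype.ext ((phiB_C p.1 ϖ).trans hxe.symm)]
  refine ⟨exists_vert_thru p.1 hC hz hp.1 hϖ, fun e he W₁ hW₁ hpar hbd => ?_⟩
  obtain ⟨r, π, c', V, hB⟩ := hpar
  obtain ⟨hcard, hval, horb, -⟩ := branch_count hC hz hA hp hW₁.1 hW₁.2 he hB hbd
  set S := stabSet (galLvl (N := N) A q ℓ) (ptSet p)
  -- one orbit
  have horbit : ∀ W' ∈ vertsAt A q ϖ z p,
      ∃ s ∈ S, ∀ x, x ∈ W' ↔ (s : flN N (constK A q) ≃+* flN N (constK A q)) x ∈ W₁ := by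
    intro W' hW'
    obtain ⟨g, hg⟩ := exists_comap_eq_of_isVertF hC hz hW₁.1 hW'.1
    have hWg : W₁.comap (((g : flN N (constK A q) ≃+* flN N (constK A q))) :
        flN N (constK A q) →+* flN N (constK A q)) = W' := SetLike.ext fun x => (hg x).symm
    haveI := hp.1
    obtain ⟨d, hd, hI⟩ := horb (p.2.comap (actB p.1 hC hz g⁻¹))
      (Ideal.comap_isMaximal_of_surjective _ (actB_surjective p.1 hC hz g⁻¹))
      (fun x hx => hW'.2 _ (by
        rw [← hWg, val_comap_galLvl, coe_actB, Subgroup.coe_inv]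
        rw [show (g : flN N (constK A q) ≃+* flN N (constK A q))
          ((g : flN N (constK A q) ≃+* flN N (constK A q))⁻¹ (x : flN N (constK A q))) = x from
          RingEquiv.apply_symm_apply _ _]
        exact hx))
      (by rw [Ideal.mem_comap, actB_toChart]; exact hval)
    refine ⟨(d : flN N (constK A q) ≃+* flN N (constK A q)) * g, ?_, fun x => ?_⟩
    · have h := inv_mem (mem_stabSet_of_comap_eq hC hz hI)
      simpa using h
    · rw [hg x]
      exact (hd.2 _).symm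
  choose sel hsel hselW using horbit
  let H := S ⊓ stabVal (galLvl (N := N) A q ℓ) W₁
  let f : vertsAt A q ϖ z p × H → S := fun x =>
    ⟨(x.2 : flN N (constK A q) ≃+* flN N (constK A q)) * sel x.1 x.1.2,
      mul_mem x.2.2.1 (hsel _ _)⟩
  have hf : Function.Bijective f := by
    constructor
    · rintro ⟨⟨V₁, hV₁⟩, ⟨h₁, hh₁⟩⟩ ⟨⟨V₂, hV₂⟩, ⟨h₂, hh₂⟩⟩ he12
      have e12 : h₁ * sel V₁ hV₁ = h₂ * sel V₂ hV₂ := congrArg Subtype.val he12
      have hV : V₁ = V₂ := SetLike.ext fun x => by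
        rw [hselW V₁ hV₁, hselW V₂ hV₂, ← hh₁.2.2 (sel V₁ hV₁ x), ← hh₂.2.2 (sel V₂ hV₂ x)]
        exact iff_of_eq (congrArg (fun g : flN N (constK A q) ≃+* flN N (constK A q) => g x ∈ W₁) e12)
      subst hV
      have := mul_right_cancel e12
      subst this
      rfl
    · rintro ⟨s, hs⟩
      set V₁ := W₁.comap (s : flN N (constK A q) →+* flN N (constK A q)) with hV₁
      have hmem : V₁ ∈ vertsAt A q ϖ z p := comap_mem_vertsAt hC hz hW₁ hs
      have hh : s * (sel V₁ hmem)⁻¹ ∈ H := by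
        refine Subgroup.mem_inf.2 ⟨mul_mem hs (inv_mem (hsel _ _)), mem_stabVal.2 ⟨mul_mem hs.1 (inv_mem (hsel V₁ hmem).1), fun x => ?_⟩⟩
        show (sel V₁ hmem)⁻¹ x ∈ V₁ ↔ x ∈ W₁
        rw [hselW V₁ hmem, show sel V₁ hmem ((sel V₁ hmem)⁻¹ x) = x from
          RingEquiv.apply_symm_apply _ _]
      exact ⟨(⟨V₁, hmem⟩, ⟨_, hh⟩), Subtype.ext (inv_mul_cancel_right s (sel V₁ hmem))⟩
  have hconj : ∀ W' ∈ vertsAt A q ϖ z p,
      Nat.card ↥(S ⊓ stabVal (galLvl (N := N) A q ℓ) W') = e * q := fun W' hW' => by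
    have hs := hsel W' hW'
    have hW'' := hselW W' hW'
    set t := sel W' hW'
    have h1 : ∀ h ∈ H, t⁻¹ * h * t ∈ S ⊓ stabVal (galLvl (N := N) A q ℓ) W' := fun h hh => by
      have hm : t⁻¹ * h * t ∈ S := mul_mem (mul_mem (inv_mem hs) hh.1) hs
      refine Subgroup.mem_inf.2 ⟨hm, mem_stabVal.2 ⟨hm.1, fun x => ?_⟩⟩
      rw [hW'', hW'', show t ((t⁻¹ * h * t) x) = h (t x) from t.apply_symm_apply _]
      exact hh.2.2 _
    have h2 : ∀ h ∈ S ⊓ stabVal (galLvl (N := N) A q ℓ) W', t * h * t⁻¹ ∈ H := fun h hh => by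
      have hm : t * h * t⁻¹ ∈ S := mul_mem (mul_mem hs hh.1) (inv_mem hs)
      refine Subgroup.mem_inf.2 ⟨hm, mem_stabVal.2 ⟨hm.1, fun x => ?_⟩⟩
      show t (h (t⁻¹ x)) ∈ W₁ ↔ x ∈ W₁
      rw [← hW'', hh.2.2, hW'', show t (t⁻¹ x) = x from t.apply_symm_apply x]
    rw [← hcard]
    exact Nat.card_congr
      { toFun := fun h => ⟨_, h2 h h.2⟩
        invFun := fun h => ⟨_, h1 h h.2⟩
        left_inv := fun h => Subtype.ext (by group)
        right_inv := fun h => Subtype.ext (by group) }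
  refine ⟨hconj, fun W' hW' => ⟨(sel W' hW')⁻¹, inv_mem (hsel W' hW'), fun x => ?_⟩, ?_,
    fun W' hW' r π c' V hB => (branch_count hC hz hA hp hW'.1 hW'.2 he hB (hconj W' hW').le).2.2.2⟩
  · rw [hselW W' hW', show sel W' hW' ((sel W' hW')⁻¹ x) = x from
      RingEquiv.apply_symm_apply _ _]
  rw [← hcard, ← Nat.card_prod]
  exact Nat.card_eq_of_bijective f hf

end FA.Carayol

end
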