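import Fermat.Agent.Carayol.Count.Chart
import Fermat.Agent.Carayol.Count.Branch
import Fermat.Agent.Carayol.Algebra.Branch
import Mathlib.GroupTheory.Coset.Card

/-!
# The points of a component over a value of the coordinate

On the residue field of a component the coordinate is the `q`-th power of a coordinate `r`; the
points over a value of it in the orbit of a point under the stabiliser of the component have
parameters of the same order, and they are all the points.
-/

set_option autoImplicit false
set_option linter.unusedSectionVars false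
set_option linter.style.haveILetI false

noncomputable section

namespace FA.Carayol

open CongruenceSubgroup ModularCurve FA.Level Polynomial
open scoped MatrixGroups

local notation "Qb" => AlgebraicClosure ℚ

variable [Algebra Qb ℂ] {A : ValuationSubring Qb} {q : ℕ} {N : ℕ} [NeZero N] {ℓ : ℕ}
  {z : flN N (constK A q)} {ϖ : baseO A (constL A q).toSubfield}

theorem mem_ptSet {p : Pt A q z} {x : flN N (constK A q)} :
    x ∈ ptSet p ↔ ∃ h : x ∈ chartF A q (coordB A q z p.1), ⟨x, h⟩ ∈ p.2 :=
  ⟨fun ⟨y, hy, e⟩ => by subst e; exact ⟨y.2, hy⟩, fun ⟨h, hx⟩ => ⟨⟨x, h⟩, hx, rfl⟩⟩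

theorem val_lt_of_mem_stab {W : ValuationSubring (flN N (constK A q))}
    {g : flN N (constK A q) ≃+* flN N (constK A q)} (hg : g ∈ stabVal (galLvl A q ℓ) W)
    (x : flN N (constK A q)) : W.valuation (g x) < 1 ↔ W.valuation x < 1 := by
  rw [← val_comap_galLvl (W := W) g x,
    show W.comap (g : flN N (constK A q) →+* flN N (constK A q)) = W from
      SetLike.ext fun y => hg.2 y]

variable (b : Bool) (hC : ConstHyp A (constL A q).toSubfield ϖ) (hz : Coord A q ℓ z)
include hC hz

theorem actB_mul (g h : galLvl (N := N) A q ℓ) (x : chartF A q (coordB A q z b)) :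
    actB b hC hz (g * h) x = actB b hC hz g (actB b hC hz h x) := Subtype.ext rfl

theorem actB_one (x : chartF A q (coordB A q z b)) : actB b hC hz 1 x = x := Subtype.ext rfl

/-- The stabiliser of a point. -/
theorem mem_stabSet_ptSet {p : Pt A q z} (g : galLvl (N := N) A q ℓ) :
    (g : flN N (constK A q) ≃+* flN N (constK A q)) ∈ stabSet (galLvl A q ℓ) (ptSet p) ↔
      ∀ x, actB p.1 hC hz g x ∈ p.2 ↔ x ∈ p.2 := by
  constructor
  · intro h x
    have h1 := h.2 (x : flN N (constK A q))
    rw [mem_ptSet, mem_ptSet] at h1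
    exact ⟨fun hx => (h1.1 ⟨_, hx⟩).2, fun hx => (h1.2 ⟨x.2, hx⟩).2⟩
  · intro h
    refine ⟨g.2, fun x => ?_⟩
    rw [mem_ptSet, mem_ptSet]
    constructor
    · rintro ⟨hx, hmem⟩
      obtain ⟨y, hy⟩ := actB_surjective p.1 hC hz g ⟨_, hx⟩
      have e : (y : flN N (constK A q)) = x :=
        (g : flN N (constK A q) ≃+* flN N (constK A q)).injective (congrArg Subtype.val hy :)
      subst e
      exact ⟨y.2, (h y).1 (by rw [hy]; exact hmem)⟩
    · rintro ⟨hx, hmem⟩
      exact ⟨galLvl_mem_chart p.1 hC hz g.2 hx, (h ⟨x, hx⟩).2 hmem⟩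

/-- Two translates of a point agree when the quotient fixes it. -/
theorem mem_stabSet_of_comap_eq {p : Pt A q z} {g h : galLvl (N := N) A q ℓ}
    (e : p.2.comap (actB p.1 hC hz g) = p.2.comap (actB p.1 hC hz h)) :
    ((g * h⁻¹ : galLvl (N := N) A q ℓ) : flN N (constK A q) ≃+* flN N (constK A q)) ∈
      stabSet (galLvl A q ℓ) (ptSet p) := by
  refine (mem_stabSet_ptSet hC hz _).2 fun x => ?_
  rw [actB_mul p.1 hC hz, ← Ideal.mem_comap, e, Ideal.mem_comap, ← actB_mul p.1 hC hz,
    mul_inv_cancel, actB_one p.1 hC hz]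

omit hz

/-- The chart in the residue field of a component. -/
def resB {W : ValuationSubring (flN N (constK A q))} (hW : IsVertF A q ϖ z W) :
    chartF A q (coordB A q z b) →+* IsLocalRing.ResidueField W :=
  (IsLocalRing.residue W).comp (toVert b hC hW)

theorem resB_eq_iff {W : ValuationSubring (flN N (constK A q))} (hW : IsVertF A q ϖ z W)
    (x y : chartF A q (coordB A q z b)) : resB b hC hW x = resB b hC hW y ↔
      W.valuation ((x : flN N (constK A q)) - y) < 1 := residue_eq_iff_val _ _

/-- The constants in the residue field of a component. -/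
def resConst {W : ValuationSubring (flN N (constK A q))} (hW : IsVertF A q ϖ z W) :
    IsLocalRing.ResidueField A →+* IsLocalRing.ResidueField W :=
  RingHom.liftOfSurjective (resO A q) (resO_surjective hC)
    ⟨((resB b hC hW).comp (toChart A q z b)).comp C, fun a ha => by
      obtain ⟨c, rfl⟩ := (pi_dvd_iff hC).2 (RingHom.mem_ker.1 ha)
      rw [RingHom.mem_ker, map_mul]
      refine mul_eq_zero_of_left ((residue_eq_zero_iff_val _).2 ?_) _
      show W.valuation (phiB A q z b (C ϖ)) < 1
      rw [phiB_C]
      exact hW.1⟩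

theorem resConst_resO {W : ValuationSubring (flN N (constK A q))} (hW : IsVertF A q ϖ z W)
    (a : baseO A (constL A q).toSubfield) :
    resConst b hC hW (resO A q a) = resB b hC hW (toChart A q z b (C a)) :=
  RingHom.liftOfRightInverse_comp_apply _ _ _ _ _

theorem eval_resConst {W : ValuationSubring (flN N (constK A q))} (hW : IsVertF A q ϖ z W)
    (P : (baseO A (constL A q).toSubfield)[X]) :
    (P.map (resO A q)).eval₂ (resConst b hC hW) (resB b hC hW (toChart A q z b X)) =
      resB b hC hW (toChart A q z b P) := by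
  have h : (eval₂RingHom (resConst b hC hW) (resB b hC hW (toChart A q z b X))).comp
      (mapRingHom (resO A q)) = (resB b hC hW).comp (toChart A q z b) :=
    Polynomial.ringHom_ext (fun a => by simp [resConst_resO b hC hW]) (by simp)
  exact DFunLike.congr_fun h P

theorem eval_resConst_ne {W : ValuationSubring (flN N (constK A q))} (hW : IsVertF A q ϖ z W)
    {P : (IsLocalRing.ResidueField A)[X]} (hP : P ≠ 0) :
    P.eval₂ (resConst b hC hW) (resB b hC hW (toChart A q z b X)) ≠ 0 := by
  obtain ⟨P, rfl⟩ := Polynomial.map_surjective _ (resO_surjective hC) P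
  rw [eval_resConst b hC hW]
  intro h
  exact ((residue_eq_zero_iff_val _).1 h).ne
    (((isVertF_iff b W).1 hW).2 P (exists_unit_coeff_of_map_ne hC hP))

include hz in
theorem resB_dependent {W : ValuationSubring (flN N (constK A q))} (hW : IsVertF A q ϖ z W)
    (x : Fin (Nat.card (stabVal (galLvl A q ℓ) W) + 1) → IsLocalRing.ResidueField W) :
    ∃ P : Fin (Nat.card (stabVal (galLvl A q ℓ) W) + 1) → (IsLocalRing.ResidueField A)[X],
      P ≠ 0 ∧ ∑ i, (P i).eval₂ (resConst b hC hW) (resB b hC hW (toChart A q z b X)) * x i = 0 := by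
  choose y hy using fun i => IsLocalRing.residue_surjective (x i)
  obtain ⟨P, ⟨i, j, hu⟩, hsum⟩ :=
    residues_dependent_coord b hC hz hW (fun i => (y i : flN N (constK A q))) fun i => (y i).2
  refine ⟨fun i => (P i).map (resO A q), fun h => resO_ne_of_isUnit hu ?_, ?_⟩
  · have := congrArg (fun p : (IsLocalRing.ResidueField A)[X] => p.coeff j) (congrFun h i)
    simpa using this
  · simp only [eval_resConst b hC hW, ← hy]
    show ∑ i, IsLocalRing.residue W (toVert b hC hW (toChart A q z b (P i))) *
      IsLocalRing.residue W (y i) = 0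
    simp only [← map_mul, ← map_sum]
    refine (residue_eq_zero_iff_val _).2 ?_
    push_cast
    exact hsum

variable [Fact q.Prime]

theorem resField_natCast_q (hA : A.LiesOverPrime q)
    {W : ValuationSubring (flN N (constK A q))} (hW : IsVertF A q ϖ z W) :
    CharP (IsLocalRing.ResidueField W) q := by
  refine (CharP.charP_iff_prime_eq_zero Fact.out).2 ?_
  have h0 : (q : IsLocalRing.ResidueField A) = 0 := by
    rw [← map_natCast (IsLocalRing.residue A), residue_eq_zero_iff_val]
    exact_mod_cast (A.mem_nonunits_iff).1 hA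
  rw [← map_natCast (resConst false hC hW), h0, map_zero]

include hz

set_option maxHeartbeats 6000000 in
/-- **The points of a component over a value of the coordinate.** -/
theorem branch_count (hA : A.LiesOverPrime q) {p : Pt A q z} (hp : IsPtF ϖ p)
    {W : ValuationSubring (flN N (constK A q))} (hW : IsVertF A q ϖ z W) (hthru : Thru p W)
    {e : ℕ} (he : 0 < e) {r π : chartF A q (coordB A q z p.1)}
    {c' : baseO A (constL A q).toSubfield} {V : ValuationSubring (flN N (constK A q))}
    (hB : BrPar A q z p W e r π c' V)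
    (hbd : Nat.card ↥(stabSet (galLvl A q ℓ) (ptSet p) ⊓ stabVal (galLvl A q ℓ) W) ≤ e * q) :
    Nat.card ↥(stabSet (galLvl A q ℓ) (ptSet p) ⊓ stabVal (galLvl A q ℓ) W) = e * q ∧
      toChart A q z p.1 (X - C (c' ^ q)) ∈ p.2 ∧
      (∀ I : Ideal (chartF A q (coordB A q z p.1)), I.IsMaximal →
        (∀ x : chartF A q (coordB A q z p.1),
          W.valuation (x : flN N (constK A q)) < 1 → x ∈ I) →
        toChart A q z p.1 (X - C (c' ^ q)) ∈ I →
          ∃ d : galLvl (N := N) A q ℓ,
            (d : flN N (constK A q) ≃+* flN N (constK A q)) ∈ stabVal (galLvl A q ℓ) W ∧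
              I = p.2.comap (actB p.1 hC hz d)) ∧
      RegularAt A q z p W π := by
  classical
  obtain ⟨b, m⟩ := p
  haveI hchar := resField_natCast_q hC hA hW
  have hq : q.Prime := Fact.out
  haveI : ExpChar (IsLocalRing.ResidueField W) q := ExpChar.prime hq
  haveI := finite_galLvl (A := A) (q := q) (N := N) (ℓ := ℓ)
  have hDG : stabVal (galLvl (N := N) A q ℓ) W ≤ galLvl A q ℓ := fun g hg => hg.1
  haveI : Finite (stabVal (galLvl (N := N) A q ℓ) W) :=
    Finite.of_injective _ (Subgroup.inclusion_injective hDG)
  set D := stabVal (galLvl (N := N) A q ℓ) W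
  set H := stabSet (galLvl (N := N) A q ℓ) (ptSet (⟨b, m⟩ : Pt A q z)) ⊓ D
  let dd : D → galLvl (N := N) A q ℓ := Subgroup.inclusion hDG
  let ι := D ⧸ H.subgroupOf D
  haveI : Fintype ι := Fintype.ofFinite ι
  let i₀ : ι := ((1 : D) : ι)
  let sel : ι → D := Function.update Quotient.out i₀ 1
  have hsel : ∀ i : ι, ((sel i : D) : ι) = i := fun i => by
    simp only [sel, Function.update_apply]
    split_ifs with h
    · exact h.symm
    · exact QuotientGroup.out_eq' i
  have hsel0 : sel i₀ = 1 := Function.update_self _ _ _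
  let ρ := resB b hC hW
  let cm := resConst b hC hW
  let σ : D → _ := fun d => actB b hC hz (dd d)
  have hσmul : ∀ (d d' : D) (x : chartF A q (coordB A q z b)), σ (d * d') x = σ d (σ d' x) :=
    fun d d' x => Subtype.ext rfl
  have hσone : ∀ x : chartF A q (coordB A q z b), σ 1 x = x := fun x => Subtype.ext rfl
  have hσC : ∀ (d : D) P, σ d (toChart A q z b P) = toChart A q z b P := fun d P =>
    actB_toChart b hC hz _ P
  -- the coordinate on the component
  have hrq : ρ r ^ q = ρ (toChart A q z b X) := by
    rw [← map_pow, resB_eq_iff b hC hW, SubmonoidClass.coe_pow, coe_toChart, phiB_X]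
    exact hB.frob
  have hσr : ∀ d : D, ρ (σ d r) = ρ r := fun d => by
    refine frobenius_inj (IsLocalRing.ResidueField W) q ?_
    rw [frobenius_def, frobenius_def, hrq, ← hσC d X, ← map_pow, ← map_pow]
    refine (resB_eq_iff b hC hW _ _).2 ?_
    rw [coe_actB, coe_actB, ← map_sub, coe_toChart, phiB_X, SubmonoidClass.coe_pow]
    exact (val_lt_of_mem_stab d.2 _).2 hB.frob
  have hinj : Function.Injective (eval₂RingHom cm (ρ r)) :=
    eval₂_injective_of_pow cm (q := q) fun P hP => hrq ▸ eval_resConst_ne b hC hW hP
  let rc : chartF A q (coordB A q z b) := r - toChart A q z b (C c')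
  have hrc : ρ rc = ρ r - cm (resO A q c') := by
    rw [resConst_resO, ← map_sub]
  have hrc0 : ρ rc ≠ 0 := fun h => by
    refine X_sub_C_ne_zero (resO A q c') (hinj ?_)
    rw [map_zero, ← h, hrc]
    simp
  have hrcq : ρ rc ^ q = ρ (toChart A q z b (X - C (c' ^ q))) := by
    rw [hrc, sub_pow_char, hrq, ← map_pow, ← map_pow, resConst_resO, map_sub (toChart A q z b),
      map_sub ρ]
  have hrcm : rc ∈ m := by
    refine (hB.centre rc).1 ?_
    simp only [rc, AddSubgroupClass.coe_sub, coe_toChart, phiB_C]
    exact hB.rho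
  -- the valuations of the points
  let Vd : D → ValuationSubring (flN N (constK A q)) := fun d =>
    V.comap ((d : flN N (constK A q) ≃+* flN N (constK A q)) :
      flN N (constK A q) →+* flN N (constK A q))
  have hVd : ∀ d : D, Vd d ≤ W := fun d x hx => (d.2.2 x).1 (hB.le hx)
  have hcent : ∀ (d : D) (x : chartF A q (coordB A q z b)),
      (resVal (hVd d)).valuation (ρ x) < 1 ↔ σ d x ∈ m := fun d x => by
    refine (resVal_lt_one (hVd d) (toVert b hC hW x)).trans (val_comap_lt.trans ?_)
    exact hB.centre (σ d x)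
  have hle : ∀ (d : D), ∀ l ∈ ρ.range, l ∈ resVal (hVd d) := fun d l hl => by
    obtain ⟨x, rfl⟩ := hl
    exact (residue_mem_resVal (hVd d) (toVert b hC hW x)).2 (hB.mem _ (σ d x).2)
  let toC := ρ.rangeRestrict
  have hthru' : ∀ (d : D) (x : chartF A q (coordB A q z b)), ρ x = 0 → σ d x ∈ m := fun d x hx =>
    hthru (σ d x) ((val_lt_of_mem_stab d.2 _).2 ((residue_eq_zero_iff_val _).1 hx))
  let vι : ι → ValuationSubring (IsLocalRing.ResidueField W) := fun i =>
    resVal (hVd (sel i)⁻¹)
  let pts : ι → Ideal ρ.range := fun i =>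
    (IsLocalRing.maximalIdeal (vι i)).comap (ρ.range.subtype.codRestrict (vι i).toSubring
      fun l => hle _ l l.2)
  have hmem : ∀ i x, toC x ∈ pts i ↔ σ (sel i)⁻¹ x ∈ m := fun i x => by
    rw [Ideal.mem_comap]
    exact ((vι i).valuation_lt_one_iff _).trans (hcent _ x)
  have hpts : ∀ i i', pts i = pts i' → i = i' := fun i i' h => by
    have hcomap : m.comap (actB b hC hz (dd (sel i)⁻¹)) =
        m.comap (actB b hC hz (dd (sel i')⁻¹)) := Ideal.ext fun x => by
      rw [Ideal.mem_comap, Ideal.mem_comap]
      exact (hmem i x).symm.trans ((Ideal.ext_iff.1 h (toC x)).trans (hmem i' x))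
    have h1 := mem_stabSet_of_comap_eq (p := (⟨b, m⟩ : Pt A q z)) hC hz hcomap
    rw [← hsel i, ← hsel i', QuotientGroup.eq, Subgroup.mem_subgroupOf]
    refine ⟨?_, (sel i)⁻¹ * sel i' |>.2⟩
    simpa [dd] using h1
  let B : BranchPts ρ.range cm (ρ r) (resO A q c')
      (Nat.card D / q) ι :=
    { cm_mem := fun a => by
        obtain ⟨a, rfl⟩ := resO_surjective hC a
        exact ⟨_, (resConst_resO b hC hW a).symm⟩
      r_mem := ⟨r, rfl⟩
      inj := hinj
      dep := exists_dep_root cm (ρ r) hq.pos fun x => by
        simp only [hrq]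
        exact resB_dependent b hC hz hW x
      pt := pts
      pt_inj := fun i i' h => hpts i i' h
      residue := fun i x => by
        obtain ⟨x, rfl⟩ := ρ.rangeRestrict_surjective x
        obtain ⟨a, ha⟩ := exists_const_sub_mem b hC hp.1 (by
          obtain ⟨y, hy, hye⟩ := hp.2
          rwa [show toChart A q z b (C ϖ) = y from Subtype.ext ((phiB_C b ϖ).trans hye.symm)])
          (σ (sel i)⁻¹ x)
        refine ⟨resO A q a, ?_⟩
        rw [← hσC (sel i)⁻¹ (C a), ← map_sub] at ha
        convert (hmem i _).2 ha using 1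
        refine Subtype.ext ?_
        show ρ x - cm (resO A q a) = ρ (x - toChart A q z b (C a))
        rw [map_sub, resConst_resO]
      val := vι
      val_le := fun i => hle _
      val_lt := fun i l => by
        refine Iff.trans ?_ Ideal.mem_comap.symm
        exact ((vι i).valuation_lt_one_iff ⟨_, hle _ l l.2⟩).symm
      rho_mem := fun i => by
        convert (hmem i rc).2 ?_ using 1
        · exact Subtype.ext hrc.symm
        have h1 : ρ (σ (sel i)⁻¹ rc - rc) = 0 := by
          simp only [rc, map_sub, hσC, hσr]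
          ring
        have h2 := hthru' 1 _ h1
        rw [hσone] at h2
        simpa using m.add_mem h2 hrcm
      par := fun i => toC (σ (sel i) π)
      ord := fun _ => e
      ord_pos := fun _ => he
      par_pow := fun i => by
        have hy : ρ (σ (sel i) rc) = ρ r - cm (resO A q c') := by
          rw [← hrc]
          simp only [rc, map_sub, hσC, hσr]
        show (vι i).valuation (ρ (σ (sel i) π)) ^ e = _
        rw [← hy, ← map_pow (vι i).valuation, ← map_pow ρ]
        refine resVal_congr (hVd _) (toVert b hC hW _) (toVert b hC hW (σ (sel i) rc)) ?_ ?_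
        · exact le_antisymm ((W.valuation_le_one_iff _).2 (SetLike.coe_mem _)) (not_lt.1 fun hlt =>
            hrc0 (hrc.trans (hy.symm.trans ((residue_eq_zero_iff_val _).2 hlt))))
        · have hv : ∀ y, (((sel i)⁻¹ : D) : flN N (constK A q) ≃+* flN N (constK A q))
              (σ (sel i) y : flN N (constK A q)) = (y : flN N (constK A q)) := fun y =>
            congrArg Subtype.val ((hσmul (sel i)⁻¹ (sel i) y).symm.trans
              (by rw [inv_mul_cancel, hσone]))
          refine val_comap_congr ?_ ?_
          · intro h0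
            refine hrc0 (hrc.trans (hy.symm.trans ?_))
            exact (residue_eq_zero_iff_val _).2 (by
              show W.valuation ((σ (sel i) rc : chartF A q (coordB A q z b)) :
                flN N (constK A q)) < 1
              rw [show ((σ (sel i) rc : chartF A q (coordB A q z b)) : flN N (constK A q)) = 0 from h0,
                map_zero]
              exact zero_lt_one' _)
          · show V.valuation ((((sel i)⁻¹ : D) : flN N (constK A q) ≃+* flN N (constK A q)) _) =
              V.valuation ((((sel i)⁻¹ : D) : flN N (constK A q) ≃+* flN N (constK A q)) _)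
            rw [show ((toVert b hC hW (σ (sel i) π ^ e) : W) : flN N (constK A q)) =
              (σ (sel i) π : flN N (constK A q)) ^ e from rfl,
              show ((toVert b hC hW (σ (sel i) rc) : W) : flN N (constK A q)) =
              (σ (sel i) rc : flN N (constK A q)) from rfl, map_pow, hv, hv, map_pow, hB.order]
            simp only [rc, AddSubgroupClass.coe_sub, coe_toChart, phiB_C] }
  -- counting
  have hHD : H ≤ D := inf_le_right
  have hcard : Nat.card D = Fintype.card ι * Nat.card H := by
    rw [Subgroup.card_eq_card_quotient_mul_card_subgroup (H.subgroupOf D), Nat.card_eq_fintype_card,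
      Nat.card_congr (Subgroup.subgroupOfEquivOfLe hHD).toEquiv]
  have hιpos : 0 < Fintype.card ι := Fintype.card_pos_iff.2 ⟨i₀⟩
  have hsum : Fintype.card ι * e ≤ Nat.card D / q := by
    have h := B.sum_ord_le
    simpa [B, Finset.sum_const] using h
  have heq : Nat.card H = e * q := by
    refine le_antisymm hbd (Nat.le_of_mul_le_mul_left ?_ hιpos)
    rw [← hcard, ← mul_assoc]
    exact (Nat.mul_le_mul_right q hsum).trans (Nat.div_mul_le_self _ _)
  have hfull : Nat.card D / q ≤ ∑ i, B.ord i := by
    refine le_of_eq ?_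
    calc Nat.card D / q = Fintype.card ι * e := by
          rw [hcard, heq, ← mul_assoc, Nat.mul_div_cancel _ hq.pos]
      _ = ∑ _i : ι, e := by simp
  have hrhoq : B.rho ^ q = toC (toChart A q z b (X - C (c' ^ q))) := Subtype.ext (by
    rw [SubmonoidClass.coe_pow, B.coe_rho, ← hrc, hrcq]
    rfl)
  refine ⟨heq, ?_, fun I hI hIW hw => ?_, fun x hx => ?_⟩
  · have h1 : B.rho ^ q ∈ pts i₀ := Ideal.pow_mem_of_mem _ (B.rho_mem i₀) _ hq.pos
    rw [hrhoq, hmem, hsel0, inv_one, hσone] at h1
    exact h1
  · have hker : RingHom.ker toC ≤ I := fun x hx => hIW x ((residue_eq_zero_iff_val _).1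
      (congrArg Subtype.val (RingHom.mem_ker.1 hx) :))
    have hIC : (I.map toC).comap toC = I := by
      rw [Ideal.comap_map_of_surjective _ ρ.rangeRestrict_surjective, ← RingHom.ker_eq_comap_bot]
      exact sup_eq_left.2 hker
    have hmax : (I.map toC).IsMaximal := by
      rcases Ideal.map_eq_top_or_isMaximal_of_surjective toC ρ.rangeRestrict_surjective hI with h | h
      · rw [h, Ideal.comap_top] at hIC
        exact absurd hIC.symm hI.ne_top
      · exact h
    have hrho : B.rho ∈ I.map toC :=
      hmax.isPrime.mem_of_pow_mem q (by rw [hrhoq]; exact Ideal.mem_map_of_mem _ hw)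
    obtain ⟨i, hi⟩ := B.eq_pt hfull hmax hrho
    refine ⟨dd (sel i)⁻¹, ((sel i)⁻¹ : D).2, Ideal.ext fun x => ?_⟩
    rw [← hIC, Ideal.mem_comap, hi, Ideal.mem_comap]
    exact hmem i x
  · have hx0 : toC x ≠ 0 := fun h => by
      have h1 : ρ x = ρ 0 := by
        rw [map_zero]
        exact congrArg Subtype.val h
      have h2 := (resB_eq_iff b hC hW x 0).1 h1
      rw [ZeroMemClass.coe_zero, sub_zero] at h2
      exact h2.ne hx
    obtain ⟨j, s, w, hs, hw, hxs⟩ := B.exists_unit_mul hfull i₀ hx0
    obtain ⟨s, rfl⟩ := ρ.rangeRestrict_surjective s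
    obtain ⟨w, rfl⟩ := ρ.rangeRestrict_surjective w
    refine ⟨j, s, w, fun h => hs ((hmem i₀ s).2 (by rwa [hsel0, inv_one, hσone])),
      fun h => hw ((hmem i₀ w).2 (by rwa [hsel0, inv_one, hσone])), ?_⟩
    have h2 : ρ (x * s) = ρ (π ^ j * w) := by
      have h3 := congrArg Subtype.val hxs
      have h5 : (B.par i₀ : IsLocalRing.ResidueField W) = ρ π := by
        show ρ (σ (sel i₀) π) = ρ π
        rw [hsel0, hσone]
      rw [Subring.coe_mul, Subring.coe_mul, SubmonoidClass.coe_pow, h5] at h3
      rw [map_mul, map_mul, map_pow]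
      exact h3
    have h4 := (resB_eq_iff b hC hW _ _).1 h2
    push_cast at h4
    exact h4

end FA.Carayol

end
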