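import Fermat.Agent.Carayol.Algebra.Surface
import Mathlib.Algebra.Polynomial.Reverse

/-!
# Inverting the coordinate
-/

set_option autoImplicit false
set_option linter.unusedSectionVars false

noncomputable section

namespace FA.Carayol

open Polynomial

variable {O F : Type} [CommRing O] [IsDomain O] [Field F]

/-- The value of a polynomial at the inverse, from that of the reflected polynomial. -/
theorem eval_inv_eq_reflect (f : O →+* F) {u : F} (hu : u ≠ 0) {P : O[X]} {n : ℕ}
    (hn : P.natDegree ≤ n) :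
    P.eval₂ f u⁻¹ = (reflect n P).eval₂ f u * u⁻¹ ^ n := by
  letI := invertibleOfNonzero (inv_ne_zero hu)
  have h := eval₂_reflect_mul_pow f u⁻¹ n P hn
  rw [invOf_eq_inv, inv_inv] at h
  exact h.symm

theorem exists_unit_coeff_reflect' (n : ℕ) {P : O[X]} (hP : ∃ i, IsUnit (P.coeff i)) :
    ∃ i, IsUnit ((reflect n P).coeff i) := by
  obtain ⟨i, hi⟩ := hP
  exact ⟨revAt n i, by rwa [coeff_reflect, revAt_invol]⟩

/-- The vertical valuations do not depend on the direction of the coordinate. -/
theorem isVertV_inv {f : O →+* F} {u : F} {ϖ : O} {V : ValuationSubring F}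
    (h : IsVertV (eval₂RingHom f u) ϖ V) : IsVertV (eval₂RingHom f u⁻¹) ϖ V := by
  have hv : V.valuation u = 1 := by simpa using h.2 X ⟨1, by simp⟩
  have hu : u ≠ 0 := fun e => by
    rw [e, map_zero] at hv
    exact zero_ne_one hv
  refine ⟨by simpa using h.1, fun P hP => ?_⟩
  rw [coe_eval₂RingHom, eval_inv_eq_reflect f hu le_rfl, map_mul, map_pow, map_inv₀, hv, inv_one,
    one_pow, mul_one]
  exact h.2 _ (exists_unit_coeff_reflect' _ hP)

theorem isVertV_inv_iff {f : O →+* F} {u : F} {ϖ : O} {V : ValuationSubring F} :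
    IsVertV (eval₂RingHom f u⁻¹) ϖ V ↔ IsVertV (eval₂RingHom f u) ϖ V :=
  ⟨fun h => by simpa using isVertV_inv h, isVertV_inv⟩

end FA.Carayol

end
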